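import Fermat.Agent.ABHN.Semi
import Fermat.Agent.PTGlob.Bridge
import Fermat.Agent.PTC.Bridge

/-!
# The theorem of Albert, Brauer, Hasse and Noether for `Gal(ℚ̄/ℚ)` and for `Gal(ℚ_S/ℚ)`
-/

set_option autoImplicit false

namespace Fermat.Agent.ABHN

open Fermat.Agent.PT Fermat.Agent.PTLocal Fermat.Agent.PTGlob Fermat.Agent.CFT
  IntermediateField

/-- the embedding `ι_q` -/
noncomputable def iq (q : Nat.Primes) : AlgebraicClosure ℚ →+* Cq q :=
  (padicEmbedding (q : ℕ) : AlgebraicClosure ℚ →ₐ[ℚ] PadicAlgCl (q : ℕ)).toRingHom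

lemma iq_apply (q : Nat.Primes) (x : AlgebraicClosure ℚ) : iq q x = padicEmbedding (q : ℕ) x :=
  rfl

lemma iq_local (q : Nat.Primes) (γ : Gq q) (x : AlgebraicClosure ℚ) :
    iq q (ExtCitation.primeLocalToGlobal q γ x) = γ (iq q x) :=
  padicEmbedding_localGaloisToGlobal (q : ℕ) γ x

-- the frozen algebra structure on `ℚ̄`, and the induced ones on subfields
attribute [-instance] DivisionRing.toRatAlgebra
noncomputable local instance instAlgebraQbA : Algebra ℚ (AlgebraicClosure ℚ) :=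
  DivisionRing.toRatAlgebra
attribute [local instance] isGalois_qbar

/-- the local levels are of Galois type -/
noncomputable def lgq (q : Nat.Primes) : LGal ℚ_[(q : ℕ)] (Cq q)
    (PTC.allL.comap (ExtCitation.primeLocalToGlobal q)) :=
  lgalQ (q : ℕ) (PTC.allL.comap (localGaloisToGlobal (q : ℕ))) (by
    rintro _ ⟨_, ⟨hn, F, hF, rfl⟩, rfl⟩
    exact ⟨F, hF, fun g hg => hg⟩) (by
    intro F hF
    obtain ⟨N, hN, hle⟩ := PTC.exists_allL_le F hF
    exact ⟨_, ⟨N, hN, rfl⟩, fun g hg => hle hg⟩)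

lemma lgq_j (q : Nat.Primes) (τ : Gq q) : (lgq q).j τ = τ := rfl

/-- all levels are of Galois type -/
noncomputable def lgAll : LGal ℚ (AlgebraicClosure ℚ) PTC.allL where
  j := MonoidHom.id _
  ker_le N _ g hg := by
    have : g = 1 := hg
    rw [this]; exact N.one_mem
  lev := by
    rintro _ ⟨hn, F, hF, rfl⟩
    exact ⟨F, hF, fun σ hσ => ⟨σ, hσ, rfl⟩⟩
  cof F hF := by
    obtain ⟨N, hN, hle⟩ := PTC.exists_allL_le F hF
    exact ⟨N, hN, fun g hg => hle hg⟩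

lemma lgAll_act : lgAll.act = galAct ℚ (AlgebraicClosure ℚ) := rfl

/-- localisations of `Gal(ℚ̄/ℚ)` -/
noncomputable def sysAll : LocSys lgAll where
  Lq q := PTC.allL.comap (ExtCitation.primeLocalToGlobal q)
  hq := lgq
  hqj _ _ := rfl
  r q := ExtCitation.primeLocalToGlobal q
  e q := iq q
  lev _ N hN := ⟨_, ⟨N, hN, rfl⟩, fun _ h => h⟩
  comm q γ x := iq_local q γ x

/-- localisations of `Gal(ℚ_S/ℚ)` -/
noncomputable def sysS (S : Finset Nat.Primes) : LocSys (lgSL S) where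
  Lq q := PTC.allL.comap (ExtCitation.primeLocalToGlobal q)
  hq := lgq
  hqj _ _ := rfl
  r q := ExtCitation.primeLocalToGlobal q
  e q := (iq q).comp (algebraMap (OmS S) (AlgebraicClosure ℚ))
  lev q := by
    rintro _ ⟨hn, F, hF, rfl⟩
    exact ⟨_, ⟨_, ⟨hn, F, hF.1, rfl⟩, rfl⟩, fun _ h => h⟩
  comm q γ x := by
    show iq q ((jS S (ExtCitation.primeLocalToGlobal q γ) x : OmS S) :
      AlgebraicClosure ℚ) = γ (iq q (x : AlgebraicClosure ℚ))
    rw [jS_apply]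
    exact iq_local q γ x

lemma exists_zeta_OmS (p : ℕ) [hp : Fact p.Prime] {S : Finset Nat.Primes}
    (hpS : (⟨p, hp.out⟩ : Nat.Primes) ∈ S) : ∃ ζ : OmS S, IsPrimitiveRoot ζ p := by
  obtain ⟨ζ, hζ⟩ := PTC.exists_zeta p
  have h1 : (CFT6.rootField p 0) ≤ OmS S :=
    (isUnramifiedOutside_iff.1 (CFT6.rootField_unr p 0 hpS)).2
  have h2 : ζ ∈ CFT6.rootField p 0 := by
    refine IntermediateField.subset_adjoin _ _ ?_
    show ζ ^ p ^ (0 + 1) = 1
    rw [zero_add, pow_one]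
    exact hζ.pow_eq_one
  exact ⟨⟨ζ, h1 h2⟩, IsPrimitiveRoot.of_map_of_injective
    (f := algebraMap (OmS S) (AlgebraicClosure ℚ)) hζ
    (algebraMap (OmS S) (AlgebraicClosure ℚ)).injective⟩

variable {p : ℕ} [hp : Fact p.Prime]

/-- **ABHN** for `Gal(ℚ̄/K)`: subgroup form. -/
theorem abhn_all (hp2 : p ≠ 2) (U : Subgroup PTC.GQ) (hU : IsOpenSub PTC.allL U)
    (β : H2 (PTC.allL.sub U) (resAct (galAct ℚ (AlgebraicClosure ℚ)) U)) (hβ : p • β = 0)
    (hloc : ∀ (q : Nat.Primes) (g : PTC.GQ), (sysAll.locU q g U).h2 β = 0) : β = 0 := by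
  obtain ⟨ζ, hζ⟩ := PTC.exists_zeta p
  exact sysAll.abhn hζ Function.surjective_id hp2 U hU β hβ hloc

/-- **ABHN** for `Gal(ℚ̄/K)`, `K` totally complex, `p`-power torsion (`p = 2` allowed). -/
theorem abhn_all_tc (U : Subgroup PTC.GQ) (hU : IsOpenSub PTC.allL U)
    (htc : NumberField.IsTotallyComplex (IntermediateField.fixedField U)) (n : ℕ)
    (β : H2 (PTC.allL.sub U) (resAct (galAct ℚ (AlgebraicClosure ℚ)) U)) (hβ : p ^ n • β = 0)
    (hloc : ∀ (q : Nat.Primes) (g : PTC.GQ), (sysAll.locU q g U).h2 β = 0) : β = 0 := by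
  obtain ⟨ζ, hζ⟩ := PTC.exists_zeta p
  refine sysAll.abhn_tc hζ Function.surjective_id U hU ?_ n β hβ hloc
  have h1 : (lgAll.sub U hU).E = IntermediateField.fixedField U := by
    unfold LGal.E
    congr 1
    ext g
    constructor
    · rintro ⟨x, rfl⟩
      exact x.2
    · intro hg
      exact ⟨⟨g, hg⟩, rfl⟩
  rw [h1]
  exact htc

/-- **ABHN** for `Gal(ℚ̄/ℚ)`, semilocal form. -/
theorem abhn_all_semi (hp2 : p ≠ 2) {X : Type*} [Finite X]
    (ξ : PTC.GQ →* Equiv.Perm X) (hξ : LevelTrivial PTC.allL ξ)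
    (β : H2 PTC.allL (mapAct ξ (galAct ℚ (AlgebraicClosure ℚ)))) (hβ : p • β = 0)
    (hloc : ∀ q : Nat.Primes, (mapPair ξ (sysAll.loc q)).h2 β = 0) : β = 0 := by
  obtain ⟨ζ, hζ⟩ := PTC.exists_zeta p
  exact sysAll.abhn_semi hζ Function.surjective_id hp2 ξ hξ β hβ hloc

/-- **ABHN** for `Gal(ℚ_S/K)`: subgroup form. -/
theorem abhn_S (hp2 : p ≠ 2) {S : Finset Nat.Primes} (hpS : (⟨p, hp.out⟩ : Nat.Primes) ∈ S)
    (U : Subgroup PTC.GQ) (hU : IsOpenSub (PTC.sL S) U)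
    (β : H2 ((PTC.sL S).sub U) (resAct (lgSL S).act U)) (hβ : p • β = 0)
    (hloc : ∀ (q : Nat.Primes) (g : PTC.GQ), ((sysS S).locU q g U).h2 β = 0) : β = 0 := by
  obtain ⟨ζ, hζ⟩ := exists_zeta_OmS p hpS
  exact (sysS S).abhn hζ jS_surjective hp2 U hU β hβ hloc

/-- **ABHN** for `Gal(ℚ_S/ℚ)`, semilocal form. -/
theorem abhn_S_semi (hp2 : p ≠ 2) {S : Finset Nat.Primes}
    (hpS : (⟨p, hp.out⟩ : Nat.Primes) ∈ S) {X : Type*} [Finite X]
    (ξ : PTC.GQ →* Equiv.Perm X) (hξ : LevelTrivial (PTC.sL S) ξ)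
    (β : H2 (PTC.sL S) (mapAct ξ (lgSL S).act)) (hβ : p • β = 0)
    (hloc : ∀ q : Nat.Primes, (mapPair ξ ((sysS S).loc q)).h2 β = 0) : β = 0 := by
  obtain ⟨ζ, hζ⟩ := exists_zeta_OmS p hpS
  exact (sysS S).abhn_semi hζ jS_surjective hp2 ξ hξ β hβ hloc

end Fermat.Agent.ABHN
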