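import Fermat.Agent.PTGlob.Conj
import Fermat.Agent.CFT.Hasse

/-!
# Local data and local norms for groups of Galois type over `ℚ`
-/

set_option autoImplicit false

namespace Fermat.Agent.ABHN

open Fermat.Agent.PT Fermat.Agent.PTLocal Fermat.Agent.PTGlob Fermat.Agent.CFT
  IntermediateField

section loc

variable {Ω : Type} [Field Ω] [Algebra ℚ Ω] {H : Type} [Group H] {L : Levels H}
  (hG : LGal ℚ Ω L) {q : Nat.Primes} (e : Ω →+* Cq q)

/-- local data at an embedding -/
structure LocD where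
  /-- the decomposition group -/
  Γ : Type
  [grp : Group Γ]
  /-- its levels -/
  LΓ : Levels Γ
  /-- it is of Galois type -/
  hΓ : LGal ℚ_[(q : ℕ)] (Cq q) LΓ
  /-- the map to the global group -/
  s : Γ →* H
  lev : ∀ N ∈ L.carrier, ∃ N' ∈ LΓ.carrier, ∀ γ ∈ N', s γ ∈ N
  comm : ∀ (γ : Γ) (x : Ω), e (hG.j (s γ) x) = hΓ.j γ (e x)
  mem : ∀ (τ : Gq q) (h : H), (∀ x, e (hG.j h x) = τ (e x)) → ∃ γ, hΓ.j γ = τ

attribute [instance] LocD.grp

variable {hG e}

/-- the map on coefficients -/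
noncomputable def embU {Ω : Type} [Field Ω] {q : Nat.Primes} (e : Ω →+* Cq q) :
    Additive Ωˣ →+ Additive (Cq q)ˣ := MonoidHom.toAdditive (Units.map (e : Ω →* Cq q))

lemma embU_apply {Ω : Type} [Field Ω] {q : Nat.Primes} (e : Ω →+* Cq q) (a : Additive Ωˣ) :
    ((Additive.toMul (embU e a) : (Cq q)ˣ) : Cq q) = e ((Additive.toMul a : Ωˣ) : Ω) := rfl

/-- localisation -/
noncomputable def LocD.pair (d : LocD hG e) : PairHom L hG.act d.LΓ d.hΓ.act where
  r := d.s
  f := embU e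
  lev := d.lev
  comm γ a := by
    apply Additive.toMul.injective
    apply Units.ext
    exact d.comm γ _

lemma LocD.isOpen (d : LocD hG e) {V : Subgroup H} (hV : IsOpenSub L V) :
    IsOpenSub d.LΓ (V.comap d.s) := by
  obtain ⟨N, hN, hle⟩ := hV
  obtain ⟨N', hN', h⟩ := d.lev N hN
  exact ⟨N', hN', fun γ hγ => hle (h γ hγ)⟩

/-- restriction of local data -/
noncomputable def LocD.res (d : LocD hG e) (V : Subgroup H) (hV : IsOpenSub L V) :
    LocD (hG.sub V hV) e where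
  Γ := V.comap d.s
  LΓ := d.LΓ.sub (V.comap d.s)
  hΓ := d.hΓ.sub _ (d.isOpen hV)
  s := (d.s.comp (V.comap d.s).subtype).codRestrict V (fun γ => γ.2)
  lev := by
    rintro _ ⟨N, hN, rfl⟩
    obtain ⟨N', hN', h⟩ := d.lev N hN
    exact ⟨_, ⟨N', hN', rfl⟩, fun γ hγ => h γ hγ⟩
  comm γ x := d.comm γ x
  mem τ h hh := by
    obtain ⟨γ, hγ⟩ := d.mem τ (h : H) hh
    have h1 : hG.j (d.s γ) = hG.j h := by
      apply AlgEquiv.ext
      intro x
      apply e.injective
      rw [d.comm, hγ]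
      exact (hh x).symm
    have h2 : d.s γ ∈ V := by
      obtain ⟨N, hN, hle⟩ := hV
      have h3 : (h : H)⁻¹ * d.s γ ∈ N :=
        hG.ker_le N hN _ (by rw [map_mul, map_inv, h1, inv_mul_cancel])
      have h4 := V.mul_mem h.2 (hle h3)
      rwa [mul_inv_cancel_left] at h4
    exact ⟨⟨γ, h2⟩, hγ⟩

lemma LocD.pair_res (d : LocD hG e) (V : Subgroup H) (hV : IsOpenSub L V)
    (β : H2 L hG.act) (h : d.pair.h2 β = 0) :
    (d.res V hV).pair.h2 ((resPair L hG.act V).h2 β) = 0 := by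
  have h1 : (d.res V hV).pair.h2 ((resPair L hG.act V).h2 β) =
      (resPair d.LΓ d.hΓ.act (V.comap d.s)).h2 (d.pair.h2 β) := by
    refine (PairHom.h2_comp (τ := resAct d.hΓ.act (V.comap d.s)) (d.res V hV).pair
      (resPair L hG.act V) β).symm.trans ?_
    refine Eq.trans ?_ (PairHom.h2_comp (resPair d.LΓ d.hΓ.act (V.comap d.s)) d.pair β)
    exact PairHom.h2_congr (fun _ => rfl) (fun _ => rfl) β
  rw [h1, h]
  exact map_zero _

variable (hG) in
/-- locally trivial classes -/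
def LocTriv (β : H2 L hG.act) : Prop :=
  ∀ (q : Nat.Primes) (e : Ω →+* Cq q), ∃ d : LocD hG e, d.pair.h2 β = 0

lemma LocTriv.sub {β : H2 L hG.act} (hβ : LocTriv hG β) (V : Subgroup H)
    (hV : IsOpenSub L V) : LocTriv (hG.sub V hV) ((resPair L hG.act V).h2 β) := by
  intro q e
  obtain ⟨d, hd⟩ := hβ q e
  exact ⟨d.res V hV, d.pair_res V hV β hd⟩

section norm

variable {p : ℕ} [hp : Fact p.Prime] [IsGalois ℚ Ω]

/-- a locally trivial cyclic class comes from local norms. -/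
theorem LocD.exists_norm (d : LocD hG e) {χ : Chi p L} (b : H0 hG.act)
    (h : d.pair.h2 (cycδ hG.smooth χ b) = 0) :
    ∃ f : ZMod p → (Cq q)ˣ,
      (∀ (γ : d.Γ) x, (f (x + (χ : H → ZMod p) (d.s γ)) : Cq q) = d.hΓ.j γ (f x)) ∧
      ∏ x, f x = Additive.toMul (embU e (b : Additive Ωˣ)) := by
  rw [cycδ_nat d.pair hG.smooth d.hΓ.smooth] at h
  by_cases hχ : chiPull d.pair χ = 0
  · refine ⟨fun x => if x = 0 then Additive.toMul (embU e (b : Additive Ωˣ)) else 1,
      fun γ x => ?_, ?_⟩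
    · have h1 : (χ : H → ZMod p) (d.s γ) = 0 := congrFun (congrArg Subtype.val hχ) γ
      rw [h1, add_zero]
      beta_reduce
      split_ifs
      · have h2 := mem_H0.1 (d.pair.h0 b).2 γ
        exact (congrArg (fun a : Additive (Cq q)ˣ => ((Additive.toMul a : (Cq q)ˣ) : Cq q)) h2).symm
      · rw [Units.val_one, map_one]
    · rw [Finset.prod_ite_eq' Finset.univ (0 : ZMod p), if_pos (Finset.mem_univ _)]
  · obtain ⟨f, hf⟩ := (cycδ_eq_zero d.hΓ.smooth (chiPull d.pair χ)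
      (fun x => d.hΓ.h90' hχ x) _).1 h
    refine ⟨fun x => Additive.toMul ((f : ZMod p → Additive (Cq q)ˣ) x), fun γ x => ?_, ?_⟩
    · have h1 := mem_H0_mapAct.1 f.2 γ x
      exact congrArg (fun a : Additive (Cq q)ˣ => ((Additive.toMul a : (Cq q)ˣ) : Cq q)) h1
    · have h1 := congrArg Subtype.val hf
      rw [← toMul_sum]
      exact congrArg Additive.toMul h1

end norm

end loc

end Fermat.Agent.ABHN
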