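import Fermat.Agent.ABHN.Loc

/-!
# The theorem of Albert, Brauer, Hasse and Noether (`p`-torsion part, `p` odd)
-/

set_option autoImplicit false

namespace Fermat.Agent.ABHN

open Fermat.Agent.PT Fermat.Agent.PTLocal Fermat.Agent.PTGlob Fermat.Agent.CFT
  IntermediateField

lemma numberField_of_fd {K : Type*} [Field K] [CharZero K] (A : Algebra ℚ K)
    (h : @Module.Finite ℚ K _ _ A.toModule) : NumberField K := by
  have h1 : A = DivisionRing.toRatAlgebra := Subsingleton.elim _ _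
  subst h1
  exact @NumberField.mk K _ ‹_› h

section step

variable {Ω : Type} [Field Ω] [Algebra ℚ Ω] [IsGalois ℚ Ω] {H : Type} [Group H] {L : Levels H}
  (hG : LGal ℚ Ω L) {p : ℕ} [hp : Fact p.Prime]

lemma numberField_E : NumberField hG.E := by
  have h1 := hG.finiteDimensional_E
  have h0 : CharZero hG.E := charZero_of_injective_algebraMap (algebraMap ℚ hG.E).injective
  exact numberField_of_fd (K := hG.E) hG.E.algebra' h1

lemma numberField_cf {χ : Chi p L} (hχ : χ ≠ 0) : NumberField (hG.cf χ) := by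
  have := numberField_E hG
  have := hG.cf_fd hχ
  exact NumberField.of_module_finite hG.E (hG.cf χ)

omit [IsGalois ℚ Ω] in
lemma j_eq_of_chi {χ : Chi p L} {h h' : H} (hh : (χ : H → ZMod p) h = (χ : H → ZMod p) h')
    {y : Ω} (hy : y ∈ hG.cf χ) : hG.j h y = hG.j h' y := by
  have h1 : (χ : H → ZMod p) (h'⁻¹ * h) = 0 := by
    rw [chi_mul, chi_inv, hh, neg_add_cancel]
  have h2 := hG.mem_cf.1 hy _ h1
  have h3 := congrArg (hG.j h') h2
  have h4 : hG.j h' (hG.j (h'⁻¹ * h) y) = hG.j h y := by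
    show (hG.j h' * hG.j (h'⁻¹ * h)) y = _
    rw [← map_mul, mul_inv_cancel_left]
  rw [← h4, h3]

lemma chi_eq_of_j {χ : Chi p L} {h h' : H} (hh : ∀ y ∈ hG.cf χ, hG.j h y = hG.j h' y) :
    (χ : H → ZMod p) h = (χ : H → ZMod p) h' := by
  have h1 : h'⁻¹ * h ∈ stab (xi χ) 0 := by
    rw [← hG.cf_comap χ, Subgroup.mem_comap, IntermediateField.mem_fixingSubgroup_iff]
    intro y hy
    show hG.j (h'⁻¹ * h) y = y
    rw [map_mul]
    show hG.j h'⁻¹ (hG.j h y) = y
    rw [hh y hy]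
    show (hG.j h'⁻¹ * hG.j h') y = y
    rw [← map_mul, inv_mul_cancel, map_one]
    rfl
  rw [mem_stab_xi, chi_mul, chi_inv, neg_add_eq_zero] at h1
  exact h1.symm

/-- local norms in the sense of embeddings -/
theorem locNm {χ : Chi p L} (hχ : χ ≠ 0) (x : hG.Eˣ)
    (hloc : LocTriv hG (cycδ hG.smooth χ (hG.eH0 (Additive.ofMul x))))
    [NumberField (hG.cf χ)] (q : Nat.Primes) (φ : Emb hG.E q) :
    LocNm (algebraMap hG.E (hG.cf χ)) q φ (em φ x) := by
  classical
  have halg : Algebra.IsAlgebraic hG.E Ω := Algebra.IsAlgebraic.tower_top (K := ℚ) hG.E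
  have hnorm : Normal hG.E Ω := Normal.tower_top_of_normal ℚ hG.E Ω
  obtain ⟨e, he⟩ := exists_ext (L := Ω) φ
  have he' : ∀ z : hG.E, e (z : Ω) = φ z := fun z => congrFun (congrArg DFunLike.coe he) z
  obtain ⟨d, hd⟩ := hloc q e
  obtain ⟨f, hf, hprod⟩ := d.exists_norm _ hd
  choose h hh using chi_surjective hχ
  let ψ : ZMod p → Emb (hG.cf χ) q := fun x =>
    (e.comp ((hG.j (h x) : Ω ≃ₐ[ℚ] Ω) : Ω →+* Ω)).comp (algebraMap (hG.cf χ) Ω)
  have hψ : ∀ x (y : hG.cf χ), ψ x y = e (hG.j (h x) (y : Ω)) := fun _ _ => rfl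
  have key : ∀ e' : Ω →+* Cq q, (∀ z : hG.E, e' (z : Ω) = φ z) →
      ∃ g : H, ∀ y, e' y = e (hG.j g y) := by
    intro e' he2
    obtain ⟨σ, hσ⟩ := exists_comp_eq (K := hG.E) (L := Ω) (ψ := e) (ψ' := e') (by
      ext z
      exact (he2 z).trans (he' z).symm)
    obtain ⟨g, hg⟩ := hG.jEh_surjective σ
    refine ⟨g, fun y => ?_⟩
    rw [hσ, ← hg]
    rfl
  have hψφ : ∀ x, (ψ x).comp (algebraMap hG.E (hG.cf χ)) = φ := by
    intro x
    ext z
    show e (hG.j (h x) (z : Ω)) = φ z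
    rw [hG.mem_E.1 z.2, he']
  have hψinj : Function.Injective ψ := by
    intro x x' hxx
    have h1 := chi_eq_of_j hG (χ := χ) (h := h x) (h' := h x') (fun y hy => by
      apply e.injective
      exact congrFun (congrArg DFunLike.coe hxx) (⟨y, hy⟩ : hG.cf χ))
    rwa [hh, hh] at h1
  have hψsurj : ∀ ψ' : Emb (hG.cf χ) q, ψ'.comp (algebraMap hG.E (hG.cf χ)) = φ →
      ∃ x, ψ x = ψ' := by
    intro ψ' hψ'
    have halg2 : Algebra.IsAlgebraic (hG.cf χ) Ω :=
      Algebra.IsAlgebraic.tower_top (K := hG.E) (hG.cf χ)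
    obtain ⟨e', he2⟩ := exists_ext (L := Ω) ψ'
    have he3 : ∀ y : hG.cf χ, e' (y : Ω) = ψ' y :=
      fun y => congrFun (congrArg DFunLike.coe he2) y
    obtain ⟨g, hg⟩ := key e' (fun z => by
      have h1 := he3 (algebraMap hG.E (hG.cf χ) z)
      have h2 : ψ' (algebraMap hG.E (hG.cf χ) z) = φ z :=
        congrFun (congrArg DFunLike.coe hψ') z
      rw [← h2, ← h1]
      rfl)
    refine ⟨(χ : H → ZMod p) g, ?_⟩
    ext y
    rw [hψ, ← he3, hg, j_eq_of_chi hG (hh _) y.2]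
  refine ⟨Function.extend ψ f 1, ?_, ?_⟩
  · intro τ hτ ψ' hψ'
    obtain ⟨x, rfl⟩ := hψsurj ψ' hψ'
    obtain ⟨g, hg⟩ := key (τ • e) (fun z => by
      rw [smul_emb_apply, he']
      exact congrFun (congrArg DFunLike.coe hτ) z)
    obtain ⟨γ, hγ⟩ := d.mem τ g (fun y => (hg y).symm)
    have h1 : τ • ψ x = ψ (x + (χ : H → ZMod p) (d.s γ)) := by
      ext y
      rw [smul_emb_apply, hψ, hψ]
      have h2 : τ (e (hG.j (h x) (y : Ω))) = e (hG.j (d.s γ) (hG.j (h x) (y : Ω))) := by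
        rw [d.comm, hγ]
      rw [h2]
      have h3 : hG.j (d.s γ) (hG.j (h x) (y : Ω)) = hG.j (d.s γ * h x) (y : Ω) := by
        rw [map_mul]; rfl
      rw [h3]
      congr 1
      apply j_eq_of_chi hG _ y.2
      rw [hh, chi_mul, hh, add_comm]
    rw [h1, hψinj.extend_apply, hψinj.extend_apply, hf, hγ]
  · have h1 : ∏ ψ' : Emb (hG.cf χ) q with ψ'.comp (algebraMap hG.E (hG.cf χ)) = φ,
        Function.extend ψ f 1 ψ' = ∏ x, f x := by
      symm
      refine Finset.prod_bij (fun x _ => ψ x) ?_ ?_ ?_ ?_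
      · intro x _
        simp [hψφ]
      · intro x _ x' _ hxx
        exact hψinj hxx
      · intro ψ' hψ'
        simp only [Finset.mem_filter, Finset.mem_univ, true_and] at hψ'
        obtain ⟨x, hx⟩ := hψsurj ψ' hψ'
        exact ⟨x, Finset.mem_univ _, hx⟩
      · intro x _
        rw [hψinj.extend_apply]
    rw [h1, hprod]
    apply Units.ext
    exact he' (x : hG.E)

lemma h90g {χ : Chi p L} (hχ : χ ≠ 0) (x : H1 L (mapAct (xi χ) hG.act)) : x = 0 := by
  have hξ := levelTrivial_xi χ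
  have hbij := sh_h1_bijective (L := L) (ρ := hG.act) hξ hG.smooth (isTrans_xi hχ)
  apply hbij.1
  exact ((hG.sub _ (isOpenSub_stab hξ 0)).h90 _).trans (map_zero _).symm

lemma tc_sub (htc : NumberField.IsTotallyComplex hG.E) (V : Subgroup H) (hV : IsOpenSub L V) :
    NumberField.IsTotallyComplex (hG.sub V hV).E := by
  have hle : hG.E ≤ (hG.sub V hV).E := fun x hx => (hG.sub V hV).mem_E.2 fun g =>
    hG.mem_E.1 hx _
  let i : hG.E →+* (hG.sub V hV).E :=
    { toFun := fun x => ⟨x.1, hle x.2⟩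
      map_one' := rfl
      map_mul' := fun _ _ => rfl
      map_zero' := rfl
      map_add' := fun _ _ => rfl }
  let _ : Algebra hG.E (hG.sub V hV).E := i.toAlgebra
  exact NumberField.isTotallyComplex_of_algebra hG.E (hG.sub V hV).E

variable {ζ : Ω} (hζ : IsPrimitiveRoot ζ p)

include hζ in
lemma tc_of_fix (hp2 : p ≠ 2) (hfix : ∀ h, hG.j h ζ = ζ) :
    NumberField.IsTotallyComplex hG.E := by
  have h1 := numberField_E hG
  have hζ' : IsPrimitiveRoot (⟨ζ, hG.mem_E.2 hfix⟩ : hG.E) p :=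
    IsPrimitiveRoot.of_map_of_injective (f := algebraMap hG.E Ω) hζ
      (algebraMap hG.E Ω).injective
  exact CFT6.tc_of_primitiveRoot hp2 hζ'

include hζ in
/-- locally trivial cyclic classes are trivial -/
theorem cyc_zero (htc : NumberField.IsTotallyComplex hG.E) (hfix : ∀ h, hG.j h ζ = ζ) {χ : Chi p L} (hχ : χ ≠ 0)
    (b : H0 hG.act) (hloc : LocTriv hG (cycδ hG.smooth χ b)) : cycδ hG.smooth χ b = 0 := by
  obtain ⟨x, rfl⟩ := hG.eH0_bijective.2 b
  have h1 := numberField_E hG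
  have h2 := numberField_cf hG hχ
  have h3 := hG.cf_isGalois χ
  have hζ' : IsPrimitiveRoot (⟨ζ, hG.mem_E.2 hfix⟩ : hG.E) p :=
    IsPrimitiveRoot.of_map_of_injective (f := algebraMap hG.E Ω) hζ
      (algebraMap hG.E Ω).injective
  obtain ⟨y, hy⟩ := hasse_norm_tc (K := hG.E) (L := hG.cf χ) htc (hG.cf_finrank hχ) hζ'
    (Additive.toMul x) (fun q φ => locNm hG hχ _ hloc q φ)
  rw [cycδ_eq_zero _ _ (fun x => h90g hG hχ x)]
  have h4 : x ∈ (((sumHom (xi χ) hG.act).h0).range).comap hG.eH0 := by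
    rw [hG.cf_norm_comap hχ]
    exact ⟨y, Units.ext hy⟩
  exact h4

include hζ in
/-- the `p`-group case -/
theorem abhn_pgroup (n : ℕ) : ∀ {H : Type} [Group H] {L : Levels H}
    (hG : LGal ℚ Ω L) (_htc : NumberField.IsTotallyComplex hG.E) (_hfix : ∀ g, hG.j g ζ = ζ) {N : Subgroup H} (_hN : N ∈ L.carrier)
    (_hidx : N.index = p ^ n) (f : Z2 L hG.act)
    (_hf : ∀ g h, ∀ s ∈ N, ∀ t ∈ N, (f : H → H → Additive Ωˣ) (g * s) (h * t) =
      (f : H → H → Additive Ωˣ) g h) (_hloc : LocTriv hG (H2.mk L _ f)),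
    H2.mk L _ f = 0 := by
  induction n with
  | zero =>
    intro H _ L hG htc hfix N hN hidx f hf hloc
    rw [pow_zero, Subgroup.index_eq_one] at hidx
    subst hidx
    refine H2.mk_eq_zero.2 ⟨fun _ => (f : H → H → Additive Ωˣ) 1 1, isLC₁_const L _, ?_⟩
    have hc : ∀ g h, (f : H → H → Additive Ωˣ) g h = (f : H → H → Additive Ωˣ) 1 1 := by
      intro g h
      have := hf 1 1 g trivial h trivial
      rwa [one_mul, one_mul] at this
    ext1 g
    ext1 h
    rw [d1_apply, hc g h]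
    have h1 := (mem_Z2'.1 f.2).2 g 1 1
    rw [hc 1 1, hc (g * 1) 1, hc g 1, hc g (1 * 1)] at h1
    have h2 : hG.act g ((f : H → H → Additive Ωˣ) 1 1) = (f : H → H → Additive Ωˣ) 1 1 := by
      exact (add_right_cancel h1).symm
    rw [h2]
    abel
  | succ n ih =>
    intro H _ L hG htc hfix N hN hidx f hf hloc
    obtain ⟨χ, hχ, hχN⟩ := exists_chi (p := p) hN hidx
    have hV := isOpenSub_stab (levelTrivial_xi χ) 0
    have hNV : N ≤ stab (xi χ) 0 := fun s hs => (mem_stab_xi χ).2 (hχN s hs)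
    have hidx' : (N.subgroupOf (stab (xi χ) 0)).index = p ^ n := by
      have h1 : N.relIndex (stab (xi χ) 0) * (stab (xi χ) 0).index = N.index :=
        Subgroup.relIndex_mul_index hNV
      have h2 : (stab (xi χ) 0).index = p := by
        have h3 := (index_stab (isTrans_xi hχ))
        rw [h3, Nat.card_zmod]
      rw [h2, hidx, pow_succ] at h1
      exact Nat.eq_of_mul_eq_mul_right hp.out.pos h1
    have h1 : (resPair L hG.act (stab (xi χ) 0)).h2 (H2.mk L _ f) = 0 := by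
      have h2 := hloc.sub _ hV
      rw [PairHom.h2_mk] at h2 ⊢
      exact ih (hG.sub _ hV) (tc_sub hG htc _ hV) (fun g => hfix g) ⟨N, hN, rfl⟩ hidx' _
        (fun g h s hs t ht => hf g h s hs t ht) h2
    have h2 : (constHom (xi χ) hG.act).h2 L (H2.mk L _ f) = 0 := by
      apply (sh_h2_bijective (levelTrivial_xi χ) hG.smooth (isTrans_xi hχ)).1
      rw [map_zero, EHom.h2, ← PairHom.h2_comp, ← h1]
      exact PairHom.h2_congr (fun _ => rfl) (fun _ => rfl) _
    obtain ⟨b, hb⟩ := exists_cycδ hG.smooth χ (fun x => h90g hG hχ x) _ h2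
    rw [← hb] at hloc ⊢
    exact cyc_zero hG hζ htc hfix hχ b hloc

end step

/-- prime-to-`p` descent for a `p`-torsion class -/
lemma eq_zero_of_resp {G : Type*} [Group G] {A : Type*} [AddCommGroup A] {L : Levels G}
    {ρ : Act G A} (hρ : Smooth L ρ) {p : ℕ} [hp : Fact p.Prime]
    {V : Subgroup G} (hVo : IsOpenSub L V) (hV : ¬ p ∣ V.index) (x : H2 L ρ) (hpx : p • x = 0)
    (hx : (resPair L ρ V).h2 x = 0) : x = 0 := by
  have hfi := hVo.finiteIndex
  have : Fintype (G ⧸ V) := Fintype.ofFinite _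
  have hl := levelTrivial_cosetAct hVo
  have ht := isTrans_cosetAct V
  have hb := sh_h2_bijective hl hρ ht
  have h1 : (constHom (cosetAct V) ρ).h2 L x = 0 := by
    apply hb.1
    rw [map_zero, EHom.h2, ← PairHom.h2_comp]
    have h2 : (resPair L ρ (stab (cosetAct V) ((1 : G) : G ⧸ V))).h2 x = 0 := by
      rw [← stab_cosetAct V] at hx
      exact hx
    rw [← h2]
    exact PairHom.h2_congr (fun _ => rfl) (fun _ => rfl) x
  have h2 := sum_const_h2 (cosetAct V) ρ x
  rw [h1, map_zero] at h2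
  have h3 := mem_of_nsmul_mem (⊥ : AddSubgroup (H2 L ρ)) (n := Fintype.card (G ⧸ V)) (p := p)
    (x := x) (by rw [← Nat.card_eq_fintype_card]; exact hV) h2.symm
    (by rw [hpx]; exact AddSubgroup.zero_mem _)
  exact h3

section main

variable {Ω : Type} [Field Ω] [Algebra ℚ Ω] [IsGalois ℚ Ω] {H : Type} [Group H] {L : Levels H}
  (hG : LGal ℚ Ω L) {p : ℕ} [hp : Fact p.Prime] {ζ : Ω} (hζ : IsPrimitiveRoot ζ p)

include hζ in
/-- **Albert-Brauer-Hasse-Noether** for `p`-torsion classes. -/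
theorem abhn_core (htc : ∀ (P : Subgroup H) (hP : IsOpenSub L P), (∀ g : P, hG.j g ζ = ζ) →
    NumberField.IsTotallyComplex (hG.sub P hP).E)
    (β : H2 L hG.act) (hβ : p • β = 0) (hloc : LocTriv hG β) : β = 0 := by
  obtain ⟨f, rfl⟩ := H2.mk_surjective _ _ β
  obtain ⟨⟨N₀, hN₀, hc₀⟩, -⟩ := mem_Z2'.1 f.2
  have hfd : FiniteDimensional ℚ ℚ⟮ζ⟯ :=
    adjoin.finiteDimensional (Algebra.IsAlgebraic.isAlgebraic _).isIntegral
  obtain ⟨N₁, hN₁, hζ₁⟩ := hG.cof _ hfd
  obtain ⟨N, hN, hNN₀, hNN₁⟩ := L.directed' N₀ hN₀ N₁ hN₁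
  have hNn := L.normal' N hN
  have hNf := L.finiteIndex' N hN
  have hc : ∀ g h, ∀ s ∈ N, ∀ t ∈ N, (f : H → H → Additive Ωˣ) (g * s) (h * t) =
      (f : H → H → Additive Ωˣ) g h := fun g h s hs t ht => hc₀ g h s (hNN₀ hs) t (hNN₀ ht)
  obtain ⟨P, hNP, -, hidx, hpg⟩ := exists_sylow_sub (p := p) N ⊤ le_top
    (by rw [Subgroup.index_top]; exact fun h => hp.out.one_lt.ne' (Nat.dvd_one.1 h))
  have hPo : IsOpenSub L P := ⟨N, hN, hNP⟩
  refine eq_zero_of_resp hG.smooth hPo hidx _ hβ ?_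
  obtain ⟨n, hn⟩ := IsPGroup.iff_card.1 hpg
  have hloc' := hloc.sub P hPo
  have hfix : ∀ g : P, hG.j g ζ = ζ := by
    have : NeZero p := ⟨hp.out.ne_zero⟩
    intro g
    obtain ⟨k, hk⟩ := hpg (QuotientGroup.mk g)
    rw [← QuotientGroup.mk_pow, QuotientGroup.eq_one_iff] at hk
    let ω : H →* (ZMod p)ˣ := (hζ.autToPow ℚ).comp hG.j
    have hω : ∀ g, ζ ^ ((ω g : (ZMod p)ˣ) : ZMod p).val = hG.j g ζ :=
      fun g => hζ.autToPow_spec ℚ (hG.j g)
    have h1 : hG.j ((g : H) ^ p ^ k) ζ = ζ :=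
      hζ₁ _ (hNN₁ hk) ⟨ζ, mem_adjoin_simple_self ℚ ζ⟩
    have h2 : ω ((g : H) ^ p ^ k) = 1 := by
      have h3 := hω ((g : H) ^ p ^ k)
      rw [h1] at h3
      have h4 : ζ ^ ((ω ((g : H) ^ p ^ k) : (ZMod p)ˣ) : ZMod p).val = ζ ^ 1 := by
        rw [h3, pow_one]
      have h5 := hζ.pow_inj (ZMod.val_lt _) hp.out.one_lt h4
      apply Units.ext
      rw [Units.val_one, ← ZMod.natCast_zmod_val ((ω ((g : H) ^ p ^ k) : (ZMod p)ˣ) : ZMod p),
        h5, Nat.cast_one]
    have h6 : ω g = 1 := by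
      rw [map_pow] at h2
      have h7 : orderOf (ω g) ∣ p ^ k := orderOf_dvd_of_pow_eq_one h2
      have h8 : orderOf (ω g) ∣ p - 1 := by
        have h9 := orderOf_dvd_card (x := ω (g : H))
        rwa [ZMod.card_units_eq_totient, Nat.totient_prime hp.out] at h9
      have h9 : Nat.Coprime (p ^ k) (p - 1) := by
        apply Nat.Coprime.pow_left
        rw [Nat.Prime.coprime_iff_not_dvd hp.out]
        intro h10
        have := Nat.le_of_dvd (by have := hp.out.one_lt; omega) h10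
        have := hp.out.one_lt
        omega
      exact orderOf_eq_one_iff.1 (Nat.eq_one_of_dvd_coprimes h9 h7 h8)
    rw [← hω, h6, Units.val_one, ZMod.val_one, pow_one]
  rw [PairHom.h2_mk] at hloc' ⊢
  exact abhn_pgroup hζ n (hG.sub P hPo) (htc P hPo hfix) hfix ⟨N, hN, rfl⟩ hn _
    (fun g h s hs t ht => hc g h s hs t ht) hloc'

include hζ in
/-- **Albert-Brauer-Hasse-Noether** for `p`-torsion classes, `p` odd. -/
theorem abhn (hp2 : p ≠ 2) (β : H2 L hG.act) (hβ : p • β = 0) (hloc : LocTriv hG β) :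
    β = 0 :=
  abhn_core hG hζ (fun P hP hfix => tc_of_fix (hG.sub P hP) hζ hp2 hfix) β hβ hloc

include hζ in
/-- **Albert-Brauer-Hasse-Noether** for `p`-torsion classes, totally complex fields. -/
theorem abhn_tc (htc : NumberField.IsTotallyComplex hG.E) (β : H2 L hG.act) (hβ : p • β = 0)
    (hloc : LocTriv hG β) : β = 0 :=
  abhn_core hG hζ (fun P hP _ => tc_sub hG htc P hP) β hβ hloc

omit [IsGalois ℚ Ω] in
/-- multiples of locally trivial classes -/
lemma LocTriv.nsmul {β : H2 L hG.act} (hβ : LocTriv hG β) (n : ℕ) : LocTriv hG (n • β) := by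
  intro q e
  obtain ⟨d, hd⟩ := hβ q e
  exact ⟨d, by rw [map_nsmul, hd]; exact nsmul_zero n⟩

include hζ in
/-- **Albert-Brauer-Hasse-Noether** for `p`-power torsion classes, `p` odd. -/
theorem abhn_pow (hp2 : p ≠ 2) (n : ℕ) (β : H2 L hG.act) (hβ : p ^ n • β = 0)
    (hloc : LocTriv hG β) : β = 0 := by
  induction n with
  | zero => rwa [pow_zero, one_smul] at hβ
  | succ n ih =>
    exact ih (abhn hG hζ hp2 _ (by rw [← mul_nsmul', ← pow_succ', hβ]) (hloc.nsmul hG _))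

include hζ in
/-- **Albert-Brauer-Hasse-Noether** for `p`-power torsion classes, totally complex fields. -/
theorem abhn_tc_pow (htc : NumberField.IsTotallyComplex hG.E) (n : ℕ) (β : H2 L hG.act)
    (hβ : p ^ n • β = 0) (hloc : LocTriv hG β) : β = 0 := by
  induction n with
  | zero => rwa [pow_zero, one_smul] at hβ
  | succ n ih =>
    exact ih (abhn_tc hG hζ htc _ (by rw [← mul_nsmul', ← pow_succ', hβ]) (hloc.nsmul hG _))

end main

end Fermat.Agent.ABHN
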