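import Fermat.Agent.ABHN.Main

/-!
# The theorem of Albert, Brauer, Hasse and Noether: subgroup form and semilocal form
-/

set_option autoImplicit false

namespace Fermat.Agent.ABHN

open Fermat.Agent.PT Fermat.Agent.PTLocal Fermat.Agent.PTGlob Fermat.Agent.CFT
  IntermediateField

section gen

variable {G Γ : Type*} [Group G] [Group Γ] {A B : Type*} [AddCommGroup A] [AddCommGroup B]
  {L : Levels G} {L' : Levels Γ} {ρ : Act G A} {σ : Act Γ B}

/-- `Map(X, -)` of a morphism of pairs -/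
def mapPair {X : Type*} (ξ : G →* Equiv.Perm X) (φ : PairHom L ρ L' σ) :
    PairHom L (mapAct ξ ρ) L' (mapAct (ξ.comp φ.r) σ) where
  r := φ.r
  f :=
    { toFun := fun a x => φ.f (a x)
      map_zero' := funext fun _ => map_zero φ.f
      map_add' := fun a b => funext fun _ => map_add φ.f _ _ }
  lev := φ.lev
  comm γ a := by
    funext x
    show φ.f (ρ (φ.r γ) (a (ξ (φ.r γ)⁻¹ x))) = σ γ (φ.f (a (ξ (φ.r γ⁻¹) x)))
    rw [map_inv φ.r, φ.comm]

/-- evaluation at a point fixed by a subgroup -/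
def evPair {X : Type*} (L : Levels G) (ξ : G →* Equiv.Perm X) (ρ : Act G A) (D : Subgroup G)
    (y : X) (hD : ∀ d ∈ D, ξ d y = y) :
    PairHom L (mapAct ξ ρ) (L.sub D) (resAct ρ D) where
  r := D.subtype
  f := { toFun := fun f => f y
         map_zero' := rfl
         map_add' := fun _ _ => rfl }
  lev N hN := ⟨_, ⟨N, hN, rfl⟩, fun _ h => h⟩
  comm γ f := by
    show ρ γ (f (ξ (γ : G)⁻¹ y)) = ρ γ (f y)
    congr 2
    exact hD _ (D.inv_mem γ.2)

/-- a homomorphism followed by conjugation -/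
def cj (r : Γ →* G) (g : G) : Γ →* G where
  toFun γ := g⁻¹ * r γ * g
  map_one' := by rw [map_one, mul_one, inv_mul_cancel]
  map_mul' a b := by rw [map_mul]; group

lemma cj_apply (r : Γ →* G) (g : G) (γ : Γ) : cj r g γ = g⁻¹ * r γ * g := rfl

end gen

/-- a system of localisations -/
structure LocSys {Ω : Type} [Field Ω] [Algebra ℚ Ω] {G : Type} [Group G] {L : Levels G}
    (hG : LGal ℚ Ω L) where
  /-- local levels -/
  Lq : ∀ q : Nat.Primes, Levels (Gq q)
  /-- they are of Galois type -/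
  hq : ∀ q : Nat.Primes, LGal ℚ_[(q : ℕ)] (Cq q) (Lq q)
  hqj : ∀ q τ, (hq q).j τ = τ
  /-- maps of groups -/
  r : ∀ q : Nat.Primes, Gq q →* G
  /-- embeddings -/
  e : ∀ q : Nat.Primes, Ω →+* Cq q
  lev : ∀ q, ∀ N ∈ L.carrier, ∃ N' ∈ (Lq q).carrier, ∀ γ ∈ N', r q γ ∈ N
  comm : ∀ q (γ : Gq q) x, e q (hG.j (r q γ) x) = γ (e q x)

namespace LocSys

variable {Ω : Type} [Field Ω] [Algebra ℚ Ω] {G : Type} [Group G] {L : Levels G}
  {hG : LGal ℚ Ω L} (S : LocSys hG)

/-- localisation -/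
noncomputable def loc (q : Nat.Primes) :
    PairHom L hG.act (S.Lq q) (galAct ℚ_[(q : ℕ)] (Cq q)) where
  r := S.r q
  f := embU (S.e q)
  lev := S.lev q
  comm γ a := by
    apply Additive.toMul.injective
    apply Units.ext
    exact S.comm q γ _

lemma cj_lev (q : Nat.Primes) (g : G) (N : Subgroup G) (hN : N ∈ L.carrier) :
    ∃ N' ∈ (S.Lq q).carrier, ∀ γ ∈ N', cj (S.r q) g γ ∈ N := by
  obtain ⟨N', hN', h⟩ := S.lev q N hN
  refine ⟨N', hN', fun γ hγ => ?_⟩
  have h1 := (L.normal' N hN).conj_mem _ (h γ hγ) g⁻¹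
  simpa [cj_apply] using h1

/-- localisation at the place given by `(q, g)` of the fixed field of `U` -/
noncomputable def locU (q : Nat.Primes) (g : G) (U : Subgroup G) :
    PairHom (L.sub U) (resAct hG.act U) ((S.Lq q).sub (U.comap (cj (S.r q) g)))
      (resAct (galAct ℚ_[(q : ℕ)] (Cq q)) (U.comap (cj (S.r q) g))) where
  r := ((cj (S.r q) g).comp (U.comap (cj (S.r q) g)).subtype).codRestrict U (fun γ => γ.2)
  f := (embU (S.e q)).comp (hG.act g)
  lev := by
    rintro _ ⟨N, hN, rfl⟩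
    obtain ⟨N', hN', h⟩ := S.cj_lev q g N hN
    exact ⟨_, ⟨N', hN', rfl⟩, fun γ hγ => h γ hγ⟩
  comm γ a := by
    apply Additive.toMul.injective
    apply Units.ext
    show S.e q (hG.j g (hG.j (g⁻¹ * S.r q γ * g) ((Additive.toMul a : Ωˣ) : Ω))) =
      (γ : Gq q) (S.e q (hG.j g ((Additive.toMul a : Ωˣ) : Ω)))
    rw [← S.comm]
    congr 1
    show (hG.j g * hG.j (g⁻¹ * S.r q γ * g)) _ = (hG.j (S.r q γ) * hG.j g) _
    rw [← map_mul, ← map_mul]
    congr 2
    group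

lemma isOpen_D (q : Nat.Primes) (g : G) {U : Subgroup G} (hU : IsOpenSub L U) :
    IsOpenSub (S.Lq q) (U.comap (cj (S.r q) g)) := by
  obtain ⟨N, hN, hle⟩ := hU
  obtain ⟨N', hN', h⟩ := S.cj_lev q g N hN
  exact ⟨N', hN', fun γ hγ => hle (h γ hγ)⟩

/-- the local datum -/
noncomputable def locD (q : Nat.Primes) (g : G) {U : Subgroup G} (hU : IsOpenSub L U)
    (e : Ω →+* Cq q) (he : ∀ x, e x = S.e q (hG.j g x)) : LocD (hG.sub U hU) e where
  Γ := U.comap (cj (S.r q) g)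
  LΓ := (S.Lq q).sub (U.comap (cj (S.r q) g))
  hΓ := (S.hq q).sub _ (S.isOpen_D q g hU)
  s := (S.locU q g U).r
  lev := (S.locU q g U).lev
  comm γ x := by
    show e (hG.j (g⁻¹ * S.r q γ * g) x) = (S.hq q).j γ (e x)
    rw [S.hqj, he, he, ← S.comm]
    congr 1
    show (hG.j g * hG.j (g⁻¹ * S.r q γ * g)) _ = (hG.j (S.r q γ) * hG.j g) _
    rw [← map_mul, ← map_mul]
    congr 2
    group
  mem τ h hh := by
    have h1 : hG.j (g * h) = hG.j (S.r q τ * g) := by
      apply AlgEquiv.ext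
      intro x
      apply (S.e q).injective
      have h2 : S.e q (hG.j (g * h) x) = e (hG.j h x) := by
        rw [he, map_mul]; rfl
      have h3 : S.e q (hG.j (S.r q τ * g) x) = τ (e x) := by
        rw [map_mul, he, ← S.comm]; rfl
      rw [h2, h3]
      exact hh x
    have h4 : g⁻¹ * S.r q τ * g ∈ U := by
      obtain ⟨N, hN, hle⟩ := hU
      have h5 : (g * (h : G))⁻¹ * (S.r q τ * g) ∈ N :=
        hG.ker_le N hN _ (by rw [map_mul, map_inv, h1, inv_mul_cancel])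
      have h6 := U.mul_mem h.2 (hle h5)
      have h7 : (h : G) * ((g * (h : G))⁻¹ * (S.r q τ * g)) = g⁻¹ * S.r q τ * g := by group
      rwa [h7] at h6
    exact ⟨⟨τ, h4⟩, S.hqj q τ⟩

lemma locD_pair (q : Nat.Primes) (g : G) {U : Subgroup G} (hU : IsOpenSub L U)
    (e : Ω →+* Cq q) (he : ∀ x, e x = S.e q (hG.j g x)) (β : H2 (L.sub U) (resAct hG.act U))
    (h : (S.locU q g U).h2 β = 0) : (S.locD q g hU e he).pair.h2 β = 0 := by
  let ι : PairHom ((S.Lq q).sub (U.comap (cj (S.r q) g)))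
      (resAct (galAct ℚ_[(q : ℕ)] (Cq q)) (U.comap (cj (S.r q) g)))
      ((S.Lq q).sub (U.comap (cj (S.r q) g)))
      ((S.hq q).sub _ (S.isOpen_D q g hU)).act :=
    { r := MonoidHom.id _
      f := AddMonoidHom.id _
      lev := fun N hN => ⟨N, hN, fun _ h => h⟩
      comm := fun γ a => by
        apply Additive.toMul.injective
        apply Units.ext
        show (γ : Gq q) ((Additive.toMul a : (Cq q)ˣ) : Cq q) =
          (S.hq q).j (γ : Gq q) ((Additive.toMul a : (Cq q)ˣ) : Cq q)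
        rw [S.hqj] }
  have h1 : (S.locD q g hU e he).pair.h2 β = ι.h2 ((S.locU q g U).h2 β) := by
    refine Eq.trans ?_ (PairHom.h2_comp ι (S.locU q g U) β)
    refine PairHom.h2_congr (φ := (S.locD q g hU e he).pair) (ψ := ι.comp (S.locU q g U))
      (fun _ => rfl) (fun a => ?_) β
    apply Additive.toMul.injective
    apply Units.ext
    exact he _
  rw [h1, h]
  exact map_zero ι.h2

variable [IsGalois ℚ Ω] {p : ℕ} [hp : Fact p.Prime] {ζ : Ω} (hζ : IsPrimitiveRoot ζ p)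

lemma exists_g (hj : Function.Surjective hG.j) (q : Nat.Primes) (e : Ω →+* Cq q) :
    ∃ g, ∀ x, e x = S.e q (hG.j g x) := by
  obtain ⟨σ, hσ⟩ := exists_comp_eq (K := ℚ) (L := Ω) (ψ := S.e q) (ψ' := e)
    (Subsingleton.elim _ _)
  obtain ⟨g, rfl⟩ := hj σ
  exact ⟨g, fun x => by rw [hσ]; rfl⟩

include hζ in
/-- **ABHN, subgroup form** -/
theorem abhn (hj : Function.Surjective hG.j) (hp2 : p ≠ 2) (U : Subgroup G)
    (hU : IsOpenSub L U) (β : H2 (L.sub U) (resAct hG.act U)) (hβ : p • β = 0)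
    (hloc : ∀ (q : Nat.Primes) (g : G), (S.locU q g U).h2 β = 0) : β = 0 := by
  refine ABHN.abhn (hG.sub U hU) hζ hp2 β hβ (fun q e => ?_)
  obtain ⟨g, hg⟩ := S.exists_g hj q e
  exact ⟨S.locD q g hU e hg, S.locD_pair q g hU e hg β (hloc q g)⟩

include hζ in
/-- **ABHN, subgroup form, totally complex case** -/
theorem abhn_tc (hj : Function.Surjective hG.j) (U : Subgroup G)
    (hU : IsOpenSub L U) (htc : NumberField.IsTotallyComplex (hG.sub U hU).E) (n : ℕ)
    (β : H2 (L.sub U) (resAct hG.act U)) (hβ : p ^ n • β = 0)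
    (hloc : ∀ (q : Nat.Primes) (g : G), (S.locU q g U).h2 β = 0) : β = 0 := by
  refine ABHN.abhn_tc_pow (hG.sub U hU) hζ htc n β hβ (fun q e => ?_)
  obtain ⟨g, hg⟩ := S.exists_g hj q e
  exact ⟨S.locD q g hU e hg, S.locD_pair q g hU e hg β (hloc q g)⟩

include hζ in
/-- **ABHN, subgroup form**, `p`-power torsion -/
theorem abhn_pow (hj : Function.Surjective hG.j) (hp2 : p ≠ 2) (U : Subgroup G)
    (hU : IsOpenSub L U) (n : ℕ) (β : H2 (L.sub U) (resAct hG.act U)) (hβ : p ^ n • β = 0)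
    (hloc : ∀ (q : Nat.Primes) (g : G), (S.locU q g U).h2 β = 0) : β = 0 := by
  refine ABHN.abhn_pow (hG.sub U hU) hζ hp2 n β hβ (fun q e => ?_)
  obtain ⟨g, hg⟩ := S.exists_g hj q e
  exact ⟨S.locD q g hU e hg, S.locD_pair q g hU e hg β (hloc q g)⟩

omit [IsGalois ℚ Ω] in
/-- Shapiro and localisation -/
lemma locU_shPair {X : Type*} (ξ : G →* Equiv.Perm X) (β : H2 L (mapAct ξ hG.act))
    (hloc : ∀ q : Nat.Primes, (mapPair ξ (S.loc q)).h2 β = 0) (x₀ : X) (q : Nat.Primes) (g : G) :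
    (S.locU q g (stab ξ x₀)).h2 ((shPair L ξ hG.act x₀).h2 β) = 0 := by
  set U := stab ξ x₀ with hUdef
  have hD : ∀ d ∈ U.comap (cj (S.r q) g), (ξ.comp (S.loc q).r) d (ξ g x₀) = ξ g x₀ := by
    intro d hd
    have h1 : ξ (g⁻¹ * S.r q d * g) x₀ = x₀ := hd
    have h2 : ξ g (ξ (g⁻¹ * S.r q d * g) x₀) = ξ g x₀ := by rw [h1]
    rw [← Equiv.Perm.mul_apply, ← map_mul] at h2
    have h3 : g * (g⁻¹ * S.r q d * g) = S.r q d * g := by group
    rw [h3, map_mul, Equiv.Perm.mul_apply] at h2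
    exact h2
  have key : (S.locU q g U).h2 ((shPair L ξ hG.act x₀).h2 β) =
      (evPair (S.Lq q) (ξ.comp (S.loc q).r) (galAct ℚ_[(q : ℕ)] (Cq q))
        (U.comap (cj (S.r q) g)) (ξ g x₀) hD).h2
        ((mapPair ξ (S.loc q)).h2 ((conjPair L (mapAct ξ hG.act) g).h2 β)) := by
    rw [← PairHom.h2_comp (mapPair ξ (S.loc q)) (conjPair L (mapAct ξ hG.act) g) β]
    refine (PairHom.h2_comp (S.locU q g U) (shPair L ξ hG.act x₀) β).symm.trans ?_
    refine Eq.trans ?_ (PairHom.h2_comp (evPair (S.Lq q) (ξ.comp (S.loc q).r)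
        (galAct ℚ_[(q : ℕ)] (Cq q)) (U.comap (cj (S.r q) g)) (ξ g x₀) hD)
      ((mapPair ξ (S.loc q)).comp (conjPair L (mapAct ξ hG.act) g)) β)
    refine PairHom.h2_congr (φ := (S.locU q g U).comp (shPair L ξ hG.act x₀))
      (ψ := (evPair (S.Lq q) (ξ.comp (S.loc q).r)
        (galAct ℚ_[(q : ℕ)] (Cq q)) (U.comap (cj (S.r q) g)) (ξ g x₀) hD).comp
        ((mapPair ξ (S.loc q)).comp (conjPair L (mapAct ξ hG.act) g)))
      (fun _ => rfl) (fun a => ?_) β
    show embU (S.e q) (hG.act g (a x₀)) =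
      embU (S.e q) (hG.act g (a (ξ g⁻¹ (ξ g x₀))))
    rw [← Equiv.Perm.mul_apply, ← map_mul, inv_mul_cancel, map_one]
    rfl
  rw [key, conj_h2 (ρ := mapAct ξ hG.act) g β, hloc q, map_zero]

include hζ in
/-- **ABHN, semilocal form** -/
theorem abhn_semi (hj : Function.Surjective hG.j) (hp2 : p ≠ 2) {X : Type*} [Finite X]
    (ξ : G →* Equiv.Perm X) (hξ : LevelTrivial L ξ) (β : H2 L (mapAct ξ hG.act))
    (hβ : p • β = 0)
    (hloc : ∀ q : Nat.Primes, (mapPair ξ (S.loc q)).h2 β = 0) : β = 0 := by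
  obtain ⟨J, hJ, x, R⟩ := exists_reps ξ
  apply (R.h2_bijective hξ hG.smooth).1
  funext j
  show (shPair L ξ hG.act (x j)).h2 β = (shPair L ξ hG.act (x j)).h2 0
  rw [map_zero]
  have hU := isOpenSub_stab hξ (x j)
  exact S.abhn hζ hj hp2 _ hU _ (by rw [← map_nsmul, hβ, map_zero])
    (S.locU_shPair ξ β hloc (x j))

include hζ in
/-- **ABHN, semilocal form, transitive totally complex case** -/
theorem abhn_semi_tc (hj : Function.Surjective hG.j) {X : Type*} [Finite X]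
    (ξ : G →* Equiv.Perm X) (hξ : LevelTrivial L ξ) (x₀ : X) (htr : PT.IsTrans ξ x₀) (U : Subgroup G)
    (hstab : stab ξ x₀ = U) (hU : IsOpenSub L U)
    (htc : NumberField.IsTotallyComplex (hG.sub U hU).E) (n : ℕ)
    (β : H2 L (mapAct ξ hG.act)) (hβ : p ^ n • β = 0)
    (hloc : ∀ q : Nat.Primes, (mapPair ξ (S.loc q)).h2 β = 0) : β = 0 := by
  subst hstab
  apply (sh_h2_bijective hξ hG.smooth htr).1
  show (shPair L ξ hG.act x₀).h2 β = (shPair L ξ hG.act x₀).h2 0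
  rw [map_zero]
  exact S.abhn_tc hζ hj _ hU htc n _ (by rw [← map_nsmul, hβ, map_zero])
    (S.locU_shPair ξ β hloc x₀)

end LocSys

end Fermat.Agent.ABHN
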